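/-
P-MW / Block E, row MW-E-FIX (helper80): Galois-fixed elements of `ℚ̄ · F₀` lie in `F₀`.

`theorem fixed : Fermat.Agent.H39.MW.FixedStatement`.

Proof: fixed-field descent (`Fermat.Agent.H27.FF.fixedDescent`) for the full Galois group,
whose fixed field is `ℚ`.
-/
import Fermat.Agent.H39.MW.ModStatements
import Fermat.Agent.H27.FF.FixedDescent

set_option autoImplicit false

noncomputable section

open ModularCurve

namespace Fermat.Agent.H80.MW

open Fermat.Agent.H39.MW Fermat.Agent.H92.MW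

/-- The coefficientwise embedding of a rational constant. -/
theorem coeffEmb_algebraMap_rat' (K : Type) [Field K] [Algebra ℚ K] (c : ℚ) :
    coeffEmb K (algebraMap ℚ (LaurentSeries ℚ) c)
      = algebraMap K (LaurentSeries K) (algebraMap ℚ K c) := by
  rw [algebraMap_laurentSeries_eq_single, algebraMap_laurentSeries_eq_single, coeffEmb,
    coeffMap_single]

/-- If every element of `K` is rational, the base change of `F₀` to `K` is (the image of) `F₀`. -/
theorem exists_of_mem_laurentBaseChange (K : Type) [Field K] [Algebra ℚ K]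
    (hK : Function.Surjective (algebraMap ℚ K))
    (F₀ : IntermediateField ℚ (LaurentSeries ℚ)) {g : LaurentSeries K}
    (hg : g ∈ laurentBaseChange K F₀) : ∃ g₀ ∈ F₀, coeffEmb K g₀ = g := by
  rw [laurentBaseChange] at hg
  induction hg using IntermediateField.adjoin_induction with
  | mem x hx =>
    obtain ⟨y, hy, rfl⟩ := hx
    exact ⟨y, hy, rfl⟩
  | algebraMap c =>
    obtain ⟨q, rfl⟩ := hK c
    exact ⟨algebraMap ℚ (LaurentSeries ℚ) q, F₀.algebraMap_mem q, coeffEmb_algebraMap_rat' K q⟩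
  | add x y _ _ hx hy =>
    obtain ⟨x₀, hx₀, rfl⟩ := hx
    obtain ⟨y₀, hy₀, rfl⟩ := hy
    exact ⟨x₀ + y₀, add_mem hx₀ hy₀, map_add _ _ _⟩
  | inv x _ hx =>
    obtain ⟨x₀, hx₀, rfl⟩ := hx
    exact ⟨x₀⁻¹, inv_mem hx₀, map_inv₀ _ _⟩
  | mul x y _ _ hx hy =>
    obtain ⟨x₀, hx₀, rfl⟩ := hx
    obtain ⟨y₀, hy₀, rfl⟩ := hy
    exact ⟨x₀ * y₀, mul_mem hx₀ hy₀, map_mul _ _ _⟩

/-- `ℚ̄ / ℚ` is Galois (for the algebra instance in use). -/
theorem isGalois_QQbar : IsGalois ℚ QQbar := by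
  have h : (AlgebraicClosure.instAlgebra ℚ : Algebra ℚ (AlgebraicClosure ℚ)) =
      DivisionRing.toRatAlgebra := Subsingleton.elim _ _
  rw [← h]
  infer_instance

/-- The fixed field of the full Galois group of `ℚ̄ / ℚ` is `ℚ`. -/
theorem surjective_algebraMap_fixedField_top :
    Function.Surjective (algebraMap ℚ
      ↥(IntermediateField.fixedField (⊤ : Subgroup (QQbar ≃ₐ[ℚ] QQbar)))) := by
  intro x
  have hx : ∀ σ : QQbar ≃ₐ[ℚ] QQbar, σ (x : QQbar) = x := fun σ =>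
    (IntermediateField.mem_fixedField_iff _ _).mp x.2 σ (Subgroup.mem_top σ)
  have := isGalois_QQbar
  obtain ⟨q, hq⟩ := (InfiniteGalois.mem_range_algebraMap_iff_fixed (x : QQbar)).mpr hx
  exact ⟨q, Subtype.ext hq⟩

/-- **MW-E-FIX.**  An element of `F̄ = ℚ̄ F₀` fixed by the coefficientwise action of
`Gal(ℚ̄ / ℚ)` lies in (the image of) `F₀`. -/
theorem fixed : FixedStatement := by
  intro F₀ f hfix
  have hfix' : ∀ σ ∈ (⊤ : Subgroup (QQbar ≃ₐ[ℚ] QQbar)),
      coeffMap ((σ : QQbar ≃ₐ[ℚ] QQbar) : QQbar →+* QQbar) (f : LaurentSeries QQbar)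
        = (f : LaurentSeries QQbar) := by
    intro σ _
    have h := congrArg Subtype.val (hfix σ)
    rw [coe_arithmeticGalois_smul] at h
    exact h
  obtain ⟨f₁, hf₁, hf₁f⟩ := Fermat.Agent.H27.FF.fixedDescent F₀ ⊤ (f : LaurentSeries QQbar)
    f.2 hfix'
  obtain ⟨g₀, hg₀, hg₀f⟩ := exists_of_mem_laurentBaseChange _
    surjective_algebraMap_fixedField_top F₀ hf₁
  refine ⟨⟨g₀, hg₀⟩, Subtype.ext ?_⟩
  rw [coe_emb, ← hf₁f, ← hg₀f, coeffEmb, coeffEmb, coeffMap_coeffMap]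
  rfl

end Fermat.Agent.H80.MW

end
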